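import Fermat.Statements.S24
import Fermat.Agent.S24.DegreeGen

set_option autoImplicit false

/-!
Common definitions for the modular block of S24.
-/

namespace Fermat.Agent.S24.Modular

open ModularCurve

/-- the constant field -/
abbrev Kbar : Type := AlgebraicClosure ℚ

/-- the function field of `X₀(N)` over `ℚ̄` -/
abbrev FN (N : ℕ) : Type := ↥(modularFunctionFieldBar N)

/-- the element `j` of the function field (`= DegreeGen.jBar N`, coe `= coeffEmb Kbar jq`) -/
noncomputable abbrev jF (N : ℕ) : FN N := Fermat.Agent.S24.DegreeGen.jBar N

/-- M1 (done in `DegreeGen`). -/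
theorem transcendental_jF (N : ℕ) : Transcendental Kbar (jF N) :=
  Fermat.Agent.S24.DegreeGen.transcendental_jBar N

end Fermat.Agent.S24.Modular
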