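import Fermat.Agent.S24.Modular.M6

set_option autoImplicit false

/-!
M5: the fibre over j = 1728.
-/

namespace Fermat.Agent.S24.Modular

open ModularCurve AlgebraicCurve IntermediateField CongruenceSubgroup UpperHalfPlane
open Fermat.Agent.S24.HolH Fermat.Agent.S24.JHol Fermat.Agent.S24.JFun
open scoped MatrixGroups

theorem S_pow_two_eq_neg_one : ModularGroup.S ^ 2 = (-1 : SL(2, ℤ)) := by decide

/-- M5 -/
theorem card_fibre_1728 (N : ℕ) [NeZero N] :
    2 * Nat.card {v : Place Kbar (FN N) // 0 < v.ord (jF N - algebraMap Kbar (FN N) 1728)}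
      = dedekindPsi N + nuTwo N := by
  have hord : ordZ UpperHalfPlane.I (jHol - algebraMap ℂ HolH ((thetaData N).emb 1728))
      = ((2 : ℕ) : ℤ) := by
    rw [map_ofNat]
    exact ordZ_jHol_sub_I
  rw [card_fibre_of_thetaData (thetaData N) 1728 UpperHalfPlane.I ModularGroup.S 2
    (by norm_num) hord S_smul_I
    (fun f hf hinv => two_dvd_ordZ_of_S_fixed S_smul_I hf hinv)
    (dvd_minimalPeriod_of_pow_smul _ 2 Nat.prime_two
      (fun i => by rw [S_pow_two_eq_neg_one]; exact neg_one_smul_coset N i))]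
  exact Fermat.Agent.S24.Comb.card_orbits_S N

end Fermat.Agent.S24.Modular
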