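import Fermat.Agent.S24.Modular.Defs
import Fermat.Agent.S24.Cusp.Inst

set_option autoImplicit false

/-!
M7: the fibre over j = infinity (cusps).  Proof: `Cusp.Inst` (the `q^(1/N)`-expansion system over
`ℚ̄` built from `QB.QExpK`) + `Cusp.Fibre` / `Cusp.QSys` (cusp embeddings) + `Puiseux.CuspWire`
(G3 wiring).
-/

namespace Fermat.Agent.S24.Modular

open ModularCurve AlgebraicCurve IntermediateField

/-- M7 -/
theorem card_fibre_infty (N : ℕ) [NeZero N] :
    Nat.card {v : Place Kbar (FN N) // v.ord (jF N) < 0} = cuspCount N :=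
  Fermat.Agent.S24.Cusp.card_fibre_infty_main N

end Fermat.Agent.S24.Modular
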