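import Fermat.Agent.S24.Modular.ThetaInst

set_option autoImplicit false

/-!
M4: generic fibres (over a ≠ 0, 1728): unramified.
-/

namespace Fermat.Agent.S24.Modular

open ModularCurve AlgebraicCurve IntermediateField CongruenceSubgroup UpperHalfPlane
open Fermat.Agent.S24.HolH Fermat.Agent.S24.JHol Fermat.Agent.S24.JFun
open scoped MatrixGroups

/-- orbits of the trivial cyclic group are points -/
theorem card_orbits_zpowers_one_eq (X : Type*) {G : Type*} [Group G] [MulAction G X] :
    Nat.card (MulAction.orbitRel.Quotient (Subgroup.zpowers (1 : G)) X) = Nat.card X := by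
  refine (Nat.card_congr (Equiv.ofBijective
    (fun x : X => (Quotient.mk'' x : MulAction.orbitRel.Quotient (Subgroup.zpowers (1 : G)) X))
    ⟨?_, ?_⟩)).symm
  · intro x y hxy
    have h := Quotient.exact' hxy
    rw [MulAction.orbitRel_apply] at h
    obtain ⟨⟨g, hg⟩, rfl⟩ := h
    rw [Subgroup.zpowers_one_eq_bot, Subgroup.mem_bot] at hg
    subst hg
    simp
  · intro q
    induction q using Quotient.inductionOn' with
    | h x => exact ⟨x, rfl⟩

/-- M4 -/
theorem card_fibre_generic (N : ℕ) [NeZero N] (a : Kbar) (h0 : a ≠ 0) (h1 : a ≠ 1728) :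
    Nat.card {v : Place Kbar (FN N) // 0 < v.ord (jF N - algebraMap Kbar (FN N) a)}
      = dedekindPsi N := by
  have hc0 : (thetaData N).emb a ≠ 0 := (map_ne_zero (thetaData N).emb).mpr h0
  have hc1 : (thetaData N).emb a ≠ 1728 := by
    intro h
    apply h1
    apply (thetaData N).emb.injective
    rw [h, map_ofNat]
  obtain ⟨τ0, -, hτ0⟩ := exists_ordZ_jHol_sub_eq_one hc0 hc1
  rw [card_fibre_of_thetaData (thetaData N) a τ0 (1 : SL(2, ℤ)) 1 one_pos
    (by rw [hτ0]; rfl) (one_smul _ _)
    (fun f _ _ => one_dvd _) (fun i hi => absurd (one_smul _ i) hi)]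
  exact (card_orbits_zpowers_one_eq (G := SL(2, ℤ)) (SL(2, ℤ) ⧸ Gamma0 N)).trans
    (Fermat.Agent.S24.Comb.card_quotient_Gamma0 N)

end Fermat.Agent.S24.Modular
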