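import Fermat.Agent.S24.Modular.Defs
import Fermat.Agent.S24.Degree.Main

set_option autoImplicit false

/-!
M3: degree of `F_N` over `ℚ̄(j)` (wiring of the DEGREE block, `Fermat.Agent.S24.Degree.Main`).
-/

namespace Fermat.Agent.S24.Modular

open ModularCurve IntermediateField

/-- `F_N` is finite over `ℚ̄(j)`. -/
theorem finite_jF (N : ℕ) [NeZero N] : Module.Finite Kbar⟮jF N⟯ (FN N) :=
  (Fermat.Agent.S24.Degree.finite_and_finrank_jF N).1

/-- M3 -/
theorem finrank_jF (N : ℕ) [NeZero N] :
    Module.finrank Kbar⟮jF N⟯ (FN N) = dedekindPsi N :=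
  (Fermat.Agent.S24.Degree.finite_and_finrank_jF N).2

end Fermat.Agent.S24.Modular
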