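import Fermat.Agent.S24.Modular.Defs
import Fermat.Agent.S24.Modular.M3

set_option autoImplicit false

/-!
M0: transcendence degree one (from the finiteness of `F_N` over `ℚ̄(j)`, `Modular.M3`).
-/

namespace Fermat.Agent.S24.Modular

open ModularCurve IntermediateField

/-- M0: `F_N` has transcendence degree one over `ℚ̄`
(`F_N` is finite, hence algebraic, over `ℚ̄(j)`, and `j` is transcendental). -/
theorem trdeg_FN (N : ℕ) [NeZero N] : Algebra.trdeg Kbar (FN N) = 1 := by
  haveI : Module.Finite Kbar⟮jF N⟯ (FN N) := finite_jF N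
  haveI : Algebra.IsAlgebraic Kbar⟮jF N⟯ (FN N) := Algebra.IsAlgebraic.of_finite _ _
  exact Fermat.Agent.S24.DegreeAbs.trdeg_eq_one (jF N) (transcendental_jF N)

end Fermat.Agent.S24.Modular
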