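import Fermat.Agent.S24.Modular.ThetaInst

set_option autoImplicit false

/-!
M6: the fibre over j = 0.
-/

namespace Fermat.Agent.S24.Modular

open ModularCurve AlgebraicCurve IntermediateField CongruenceSubgroup UpperHalfPlane
open Fermat.Agent.S24.HolH Fermat.Agent.S24.JHol Fermat.Agent.S24.JFun
open scoped MatrixGroups

theorem ST_pow_three : (ModularGroup.S * ModularGroup.T) ^ 3 = (-1 : SL(2, ℤ)) := by decide

theorem neg_one_smul_coset (N : ℕ) (i : SL(2, ℤ) ⧸ Gamma0 N) : (-1 : SL(2, ℤ)) • i = i := by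
  induction i using QuotientGroup.induction_on with
  | H γ =>
    rw [MulAction.Quotient.smul_mk, smul_eq_mul]
    refine QuotientGroup.eq.mpr ?_
    have h : (-1 * γ)⁻¹ * γ = (-1 : SL(2, ℤ)) := by
      rw [mul_inv_rev, mul_assoc]
      have h2 : (-1 : SL(2, ℤ))⁻¹ * γ = γ * (-1) := by
        have h3 : (-1 : SL(2, ℤ))⁻¹ = -1 := by decide
        rw [h3]
        ext i j
        simp
      rw [h2, ← mul_assoc, inv_mul_cancel, one_mul]
    rw [h, Gamma0_mem]
    simp

/-- Cosets not fixed by an element whose prime power `p` acts trivially have period `p`. -/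
theorem dvd_minimalPeriod_of_pow_smul {N : ℕ} (g : SL(2, ℤ)) (p : ℕ) (hp : p.Prime)
    (hg : ∀ i : SL(2, ℤ) ⧸ Gamma0 N, g ^ p • i = i)
    (i : SL(2, ℤ) ⧸ Gamma0 N) (hi : g • i ≠ i) :
    p ∣ Function.minimalPeriod (g • ·) i := by
  have hper : Function.IsPeriodicPt (g • ·) p i := by
    have h := hg i
    show (g • ·)^[p] i = i
    rw [smul_iterate]
    exact h
  have hdvd := hper.minimalPeriod_dvd
  rcases (Nat.dvd_prime hp).mp hdvd with h1 | h1
  · exact absurd (Function.minimalPeriod_eq_one_iff_isFixedPt.mp h1) hi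
  · rw [h1]

/-- M6 -/
theorem card_fibre_zero (N : ℕ) [NeZero N] :
    3 * Nat.card {v : Place Kbar (FN N) // 0 < v.ord (jF N - algebraMap Kbar (FN N) 0)}
      = dedekindPsi N + 2 * nuThree N := by
  have hord : ordZ rho (jHol - algebraMap ℂ HolH ((thetaData N).emb 0)) = ((3 : ℕ) : ℤ) := by
    rw [map_zero]
    exact ordZ_jHol_sub_zero_rho
  rw [card_fibre_of_thetaData (thetaData N) 0 rho (ModularGroup.S * ModularGroup.T) 3
    (by norm_num) hord ST_smul_rho
    (fun f hf hinv => three_dvd_ordZ_of_ST_fixed ST_smul_rho hf hinv)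
    (dvd_minimalPeriod_of_pow_smul _ 3 Nat.prime_three
      (fun i => by rw [ST_pow_three]; exact neg_one_smul_coset N i))]
  exact Fermat.Agent.S24.Comb.card_orbits_ST N

end Fermat.Agent.S24.Modular
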