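import Fermat.Agent.S24.Modular.Defs
import Fermat.Agent.S24.DiffOrd

set_option autoImplicit false

/-!
MG1: existence of a nonzero differential on `F_N` (via `d/dq` on Laurent series).
-/

namespace Fermat.Agent.S24.Modular

open ModularCurve AlgebraicCurve IntermediateField KaehlerDifferential
open Fermat.Agent.S24.DiffOrd Fermat.Agent.S24.DiffLaurent

/-- `dj ≠ 0` in `Ω[F_N/ℚ̄]`. -/
theorem D_jF_ne_zero (N : ℕ) : D Kbar (FN N) (jF N) ≠ 0 := by
  obtain ⟨L, -, hLD⟩ := exists_lift (K := Kbar) (F := FN N) (modularFunctionFieldBar N).val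
  intro h0
  have h1 := hLD (jF N)
  rw [h0, map_zero] at h1
  have h2 := congrArg (fun f : LaurentSeries Kbar => f.coeff (-2)) h1
  simp only [HahnSeries.coeff_zero] at h2
  rw [derivative_coeff] at h2
  have h3 : ((modularFunctionFieldBar N).val (jF N)).coeff (-2 + 1) = 1 := by
    show (coeffEmb Kbar jq).coeff (-2 + 1) = 1
    exact Fermat.Agent.S24.DegreeGen.coeffEmb_jq_coeff_neg_one Kbar
  rw [h3] at h2
  norm_num at h2

/-- MG1 -/
theorem exists_differential_ne_zero (N : ℕ) [NeZero N] :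
    ∃ ω : Ω[FN N⁄Kbar], ω ≠ 0 :=
  ⟨_, D_jF_ne_zero N⟩

end Fermat.Agent.S24.Modular
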