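import Fermat.Agent.S24.Generic.G3
import Fermat.Agent.S24.Modular.M0
import Fermat.Agent.S24.Modular.M3
import Fermat.Agent.S24.Comb.Counts
import Fermat.Agent.S24.JHol
import Fermat.Agent.S24.HolHRot
import Fermat.Agent.S24.AdjoinShift

set_option autoImplicit false
set_option linter.dupNamespace false

/-!
Generic wiring for the fibres of `j` over finite points (M4, M5, M6): from analytic
uniformisation data `ThetaData N` and the frozen fibre-count lemma G3.
-/

noncomputable section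

namespace Fermat.Agent.S24.Modular

open ModularCurve AlgebraicCurve IntermediateField CongruenceSubgroup UpperHalfPlane
open Fermat.Agent.S24.HolH Fermat.Agent.S24.JHol
open scoped MatrixGroups

/-- Analytic uniformisation data for `F_N`: a generating subalgebra `F₀` together with an
injective ring hom `θ` to holomorphic functions on `ℍ`, with exact stabiliser `Γ₀(N)`. -/
structure ThetaData (N : ℕ) [NeZero N] where
  F₀ : Subalgebra Kbar (FN N)
  hF₀ : ∀ f : FN N, ∃ a b : F₀, (b : FN N) ≠ 0 ∧ f * b = a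
  hj : jF N ∈ F₀
  emb : Kbar →+* ℂ
  θ : F₀ →+* HolH
  θ_inj : Function.Injective θ
  θ_const : ∀ c : Kbar, θ (algebraMap Kbar F₀ c) = algebraMap ℂ HolH (emb c)
  θ_j : θ ⟨jF N, hj⟩ = jHol
  θ_inv : ∀ g ∈ Gamma0 N, ∀ f : F₀, compSL g (θ f) = θ f
  θ_stab : ∀ g : SL(2, ℤ), (∀ f : F₀, compSL g (θ f) = θ f) → g ∈ Gamma0 N

namespace ThetaData

variable {N : ℕ} [NeZero N] (D : ThetaData N)

/-- The embedding attached to a left coset `γ Γ₀(N)`: `f ↦ θ f ∘ γ⁻¹`. -/
def ρ (i : SL(2, ℤ) ⧸ Gamma0 N) : D.F₀ →+* HolH :=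
  ((compSL (Quotient.out i)⁻¹ : HolH →ₐ[ℂ] HolH) : HolH →+* HolH).comp D.θ

theorem ρ_apply (i : SL(2, ℤ) ⧸ Gamma0 N) (f : D.F₀) :
    D.ρ i f = compSL (Quotient.out i)⁻¹ (D.θ f) := rfl

theorem ρ_mk (γ : SL(2, ℤ)) (f : D.F₀) :
    D.ρ (QuotientGroup.mk γ) f = compSL γ⁻¹ (D.θ f) := by
  rw [ρ_apply]
  set γ' := Quotient.out (QuotientGroup.mk γ : SL(2, ℤ) ⧸ Gamma0 N) with hγ'
  have h1 : (QuotientGroup.mk γ' : SL(2, ℤ) ⧸ Gamma0 N) = QuotientGroup.mk γ :=
    QuotientGroup.out_eq' _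
  have h2 : γ'⁻¹ * γ ∈ Gamma0 N := QuotientGroup.eq.mp h1
  have h3 : γ'⁻¹ = (γ'⁻¹ * γ) * γ⁻¹ := by group
  rw [h3, compSL_mul, D.θ_inv _ h2]

theorem ρ_smul (g : SL(2, ℤ)) (i : SL(2, ℤ) ⧸ Gamma0 N) (f : D.F₀) :
    D.ρ (g • i) f = compSL g⁻¹ (D.ρ i f) := by
  induction i using QuotientGroup.induction_on with
  | H γ =>
    rw [MulAction.Quotient.smul_mk, ρ_mk, ρ_mk, smul_eq_mul, mul_inv_rev, compSL_mul]

theorem ρ_injective (i : SL(2, ℤ) ⧸ Gamma0 N) : Function.Injective (D.ρ i) :=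
  (compSL_injective _).comp D.θ_inj

theorem ρ_ne : Function.Injective D.ρ := by
  intro i i' h
  induction i using QuotientGroup.induction_on with
  | H γ =>
    induction i' using QuotientGroup.induction_on with
    | H γ' =>
      refine (QuotientGroup.eq.mpr ?_)
      refine D.θ_stab _ fun f => ?_
      have h1 : D.ρ (QuotientGroup.mk γ) f = D.ρ (QuotientGroup.mk γ') f := by rw [h]
      rw [ρ_mk, ρ_mk] at h1
      have h2 := congrArg (compSL γ') h1
      rw [compSL_compSL_inv, ← compSL_mul] at h2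
      exact h2

theorem ρ_const (i : SL(2, ℤ) ⧸ Gamma0 N) (c : Kbar) :
    D.ρ i (algebraMap Kbar D.F₀ c) = algebraMap ℂ HolH (D.emb c) := by
  rw [ρ_apply, D.θ_const, AlgHom.commutes]

/-- The element `j - a` of `F₀`. -/
def num (a : Kbar) : D.F₀ :=
  ⟨jF N - algebraMap Kbar (FN N) a, sub_mem D.hj (Subalgebra.algebraMap_mem _ a)⟩

theorem θ_num (a : Kbar) : D.θ (D.num a) = jHol - algebraMap ℂ HolH (D.emb a) := by
  have h : D.num a = ⟨jF N, D.hj⟩ - algebraMap Kbar D.F₀ a := rfl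
  rw [h, map_sub, D.θ_j, D.θ_const]

theorem ρ_num (i : SL(2, ℤ) ⧸ Gamma0 N) (a : Kbar) :
    D.ρ i (D.num a) = jHol - algebraMap ℂ HolH (D.emb a) := by
  rw [ρ_apply, θ_num, compSL_jHol_sub]

end ThetaData

/-- Generic fibre count over a finite point `j = a`: the number of places of `F_N` over `a`
equals the number of `⟨g⟩`-orbits on `SL(2,ℤ) ⧸ Γ₀(N)`, where `g` fixes a point `τ0` above `a`
at which `j - a` vanishes to order `s`, `g`-invariant functions have order divisible by `s`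
at `τ0`, and non-fixed cosets have period divisible by `s`. -/
theorem card_fibre_of_thetaData {N : ℕ} [NeZero N] (D : ThetaData N) (a : Kbar) (τ0 : ℍ)
    (g : SL(2, ℤ)) (s : ℕ) (hs : 0 < s)
    (hord : ordZ τ0 (jHol - algebraMap ℂ HolH (D.emb a)) = s)
    (hfix : g • τ0 = τ0)
    (hrot : ∀ f : HolH, f ≠ 0 → compSL g f = f → (s : ℤ) ∣ ordZ τ0 f)
    (hper : ∀ i : SL(2, ℤ) ⧸ Gamma0 N, g • i ≠ i → s ∣ Function.minimalPeriod (g • ·) i) :
    Nat.card {v : Place Kbar (FN N) // 0 < v.ord (jF N - algebraMap Kbar (FN N) a)}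
      = Nat.card (MulAction.orbitRel.Quotient (Subgroup.zpowers g) (SL(2, ℤ) ⧸ Gamma0 N)) := by
  classical
  letI : Fintype (SL(2, ℤ) ⧸ Gamma0 N) := Fintype.ofFinite _
  have htr := trdeg_FN N
  have hx0 := transcendental_jF N
  have hx := Fermat.Agent.S24.AdjoinShift.transcendental_sub_algebraMap hx0 a
  have hfin0 : FiniteDimensional Kbar⟮jF N⟯ (FN N) :=
    Fermat.Agent.S24.FF.finite_adjoin_simple htr hx0
  have hfin := Fermat.Agent.S24.AdjoinShift.finiteDimensional_sub_algebraMap (jF N) a hfin0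
  have hginv : g⁻¹ • τ0 = τ0 := by
    conv_lhs => rw [← hfix]
    rw [inv_smul_smul]
  refine Generic.card_zeroPlaces_eq_card_orbits htr (jF N - algebraMap Kbar (FN N) a) hx hfin
    D.F₀ D.hF₀ (D.num a) 1 one_ne_zero (by simp [ThetaData.num]) (ordZ τ0)
    (fun a b ha hb => ordZ_mul τ0 ha hb) (fun a b ha hb hab => min_le_ordZ_add τ0 ha hb hab)
    D.ρ D.ρ_injective D.ρ_ne ?_ ?_ ?_ ?_ ?_ s hs ?_ g ?_ ?_
  · rw [Fermat.Agent.S24.AdjoinShift.finrank_sub_algebraMap, finrank_jF, ← Nat.card_eq_fintype_card,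
      Fermat.Agent.S24.Comb.card_quotient_Gamma0]
  · intro i j c
    rw [D.ρ_const, D.ρ_const]
  · intro i j
    rw [D.ρ_num, D.ρ_num]
  · intro i j
    rw [map_one, map_one]
  · intro i c hc
    rw [D.ρ_const]
    exact ordZ_algebraMap ((map_ne_zero_iff _ D.emb.injective).mpr hc)
  · intro i
    rw [D.ρ_num, map_one, ordZ_one, hord, sub_zero]
  · intro i f
    rw [D.ρ_smul, ordZ_compSL, hginv]
  · intro i f hf
    have hf0 : D.ρ i f ≠ 0 := (map_ne_zero_iff _ (D.ρ_injective i)).mpr hf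
    by_cases hi : g • i = i
    · have h1 : compSL g⁻¹ (D.ρ i f) = D.ρ i f := by rw [← D.ρ_smul, hi]
      have h2 : compSL g (D.ρ i f) = D.ρ i f := compSL_eq_self_of_inv h1
      exact Dvd.dvd.mul_right (hrot _ hf0 h2) _
    · have h1 : (s : ℤ) ∣ (Function.minimalPeriod (g • ·) i : ℤ) := by
        exact_mod_cast hper i hi
      exact Dvd.dvd.mul_left h1 _

end Fermat.Agent.S24.Modular
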