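import Fermat.Agent.S24.Modular.FinFibre
import Fermat.Agent.S24.Theta
import Fermat.Agent.S24.StabJ

set_option autoImplicit false
set_option linter.dupNamespace false

/-!
The analytic uniformisation data of `F_N`, assembled from `Theta` (the `q`-expansion
evaluation `θ : A₀(N) → HolH`, `A₀(N)` the `ℚ̄`-algebra generated by the `j(q^d)`, `d ∣ N`)
and `StabJ` (the stabiliser of `τ ↦ j(Nτ)` in `SL(2, ℤ)` is `Γ₀(N)`).
-/

noncomputable section

namespace Fermat.Agent.S24.Modular

open ModularCurve CongruenceSubgroup UpperHalfPlane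
open Fermat.Agent.S24.HolH Fermat.Agent.S24.JHol Fermat.Agent.S24.JFun
open scoped MatrixGroups

theorem jF_mem_A0 (N : ℕ) : jF N ∈ Theta.A0 N := (Theta.jA0 N).2

theorem theta_jF (N : ℕ) :
    Theta.theta Theta.iotaBar N ⟨jF N, jF_mem_A0 N⟩ = jHol := by
  apply Subtype.ext
  exact Theta.theta_jA0 Theta.iotaBar N

theorem mem_Gamma0_of_theta_stab (N : ℕ) [NeZero N] (g : SL(2, ℤ))
    (h : ∀ f : Theta.A0 N,
      compSL g (Theta.theta Theta.iotaBar N f) = Theta.theta Theta.iotaBar N f) :
    g ∈ Gamma0 N := by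
  apply Fermat.Agent.S24.StabJ.mem_Gamma0_of_jFun_scale N g
  intro τ
  have h1 := h (Theta.gen N N dvd_rfl)
  have h2 := congrArg (fun f : HolH => (f : ℍ → ℂ) τ) h1
  simp only [compSL_apply, Theta.theta_gen_apply] at h2
  exact h2

/-- The analytic uniformisation data of `F_N`. -/
def thetaData (N : ℕ) [NeZero N] : ThetaData N where
  F₀ := Theta.A0 N
  hF₀ := Theta.exists_mul_eq
  hj := jF_mem_A0 N
  emb := Theta.iotaBar
  θ := Theta.theta Theta.iotaBar N
  θ_inj := Theta.theta_injective Theta.iotaBar N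
  θ_const := Theta.theta_algebraMap Theta.iotaBar N
  θ_j := theta_jF N
  θ_inv := fun _ hg f => Theta.compSL_theta_of_mem_Gamma0 hg f
  θ_stab := mem_Gamma0_of_theta_stab N

end Fermat.Agent.S24.Modular
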