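import Fermat.Agent.S24.Fibres.Package
import Fermat.Agent.S24.Modular.ThetaInst

set_option autoImplicit false
set_option linter.dupNamespace false

/-!
Adapter: the analytic uniformisation data `Modular.ThetaData N` (file `Modular/FinFibre.lean`,
instance `Modular.thetaData N` in `Modular/ThetaInst.lean`) gives the `Fibres.ThetaPackage N`
consumed by `Fibres.Package` (M4, M5).  So ONE analytic object serves M4, M5 and M6.
-/

noncomputable section

namespace Fermat.Agent.S24.Modular

open ModularCurve AlgebraicCurve IntermediateField CongruenceSubgroup UpperHalfPlane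
open Fermat.Agent.S24.HolH Fermat.Agent.S24.JHol
open scoped MatrixGroups

/-- `ThetaData` repackaged as a `Fibres.ThetaPackage`. -/
def ThetaData.toPackage {N : ℕ} [NeZero N] (D : ThetaData N) :
    Fermat.Agent.S24.Fibres.ThetaPackage N where
  F₀ := D.F₀
  frac := D.hF₀
  j₀ := ⟨jF N, D.hj⟩
  coe_j₀ := rfl
  θ := D.θ
  θ_inj := D.θ_inj
  ι := D.emb
  θ_const := D.θ_const
  θ_j₀ := fun τ => by rw [D.θ_j]; rfl
  θ_Γ := D.θ_inv
  θ_sep := D.θ_stab

/-- The `Fibres.ThetaPackage` of level `N` (from `Modular.thetaData N`). -/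
def thetaPackageOfData (N : ℕ) [NeZero N] : Fermat.Agent.S24.Fibres.ThetaPackage N :=
  (thetaData N).toPackage

/-- M4 from the package (same statement as `Modular.card_fibre_generic`). -/
theorem card_fibre_generic_of_thetaData (N : ℕ) [NeZero N] (a : Kbar) (h0 : a ≠ 0)
    (h1 : a ≠ 1728) :
    Nat.card {v : Place Kbar (FN N) // 0 < v.ord (jF N - algebraMap Kbar (FN N) a)}
      = dedekindPsi N :=
  (thetaPackageOfData N).card_fibre_generic a h0 h1

/-- M5 from the package (same statement as `Modular.card_fibre_1728`). -/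
theorem card_fibre_1728_of_thetaData (N : ℕ) [NeZero N] :
    2 * Nat.card {v : Place Kbar (FN N) // 0 < v.ord (jF N - algebraMap Kbar (FN N) 1728)}
      = dedekindPsi N + nuTwo N :=
  (thetaPackageOfData N).card_fibre_1728

end Fermat.Agent.S24.Modular
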